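import Fermat.Agent.S38T.IA.Hecke.Spec
import Fermat.Agent.S38.H354.ChiAut

/-!
# Row S59 (B2) HECKE-T, GLUE A, part 1: `ty`-generic twin of `S38/H354/ChiAut.lean` (helper354)

MECHANICAL TWIN in the convention of helper3 (`S38T/IA/Spec.lean`): module `S38.X -> S38T.X`, SAME
namespace, every twinned declaration has the suffix `_T`; the text is the text of
`S38/H354/ChiAut.lean` with `.flat` replaced by `ty : PType` and `IAAutLevel` by `IAAutLevel_T`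
(frozen spec `S38T/IA/Hecke/Spec.lean` @166e8dc9f).  The `ty`-independent lemmas
(`exists_nat_pow_of_mem_zpowers`, `mulSingle_pow_eq`, and the whole `χ`-part algebra of
`ChiPart`/`ChiGen`/`ChiChar`) are the HARD ones, imported.  No hypothesis on `p` beyond primality.

* `iaAutLevelOfChi_T` : the `χ`-part `V ⧸ chiRel (rhoL dia) (chiT T χ)` of a Betti level is an
  `IAAutLevel_T Piv qv PQ lam d`;
* `iaAutLevelOfChi_cmp_T` : the comparison `Cmp` descends to the `χ`-part;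
* `exists_iaAutLevel_cyc_T` : the same with `D₁ = ∏_{i < k} (ℤ/pv i)ˣ` and the character built from
  a primitive `p`-th root of unity `ζ`.
-/

set_option autoImplicit false
set_option linter.unusedSectionVars false
set_option linter.style.haveILetI false

open Polynomial IsLocalRing

namespace Fermat.Agent.S38.H354

open Fermat.Agent.S59.Arch Fermat.Agent.S59.TW.H959 Fermat.Agent.S59.TW
open Fermat.Agent.S38.IA Fermat.Agent.S38.IA.Hecke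

section General

variable {p : ℕ}
  {𝒪 : Type} [CommRing 𝒪] [IsDomain 𝒪] [IsDiscreteValuationRing 𝒪]
  [IsAdicComplete (maximalIdeal 𝒪) 𝒪]
  {ρbar : ResidualGaloisRep (ResidueField 𝒪)} {ty : PType} {Smin : Finset ℕ}
  {Piv : Finset ℕ} {r : ℕ} {qv : Fin r → ℕ}
  [NeZero (wilesLevel p ty Smin (Smin ∪ Piv ∪ Finset.univ.image qv))]
  (PQ : HeckePkg p 𝒪 ρbar ty Smin (Smin ∪ Piv ∪ Finset.univ.image qv))
  (V : Type) [AddCommGroup V] [Module PQ.T V]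
  {D₁ : Type} [Monoid D₁] {E₁ : Type} [Fintype E₁] (γ₁ : E₁ → D₁)
  (dia : D₁ × (∀ j : Fin r, (ZMod (qv j))ˣ) →* Module.End PQ.T V)
  (χ : D₁ →* 𝒪) (lam : 𝒪) (d : ℕ)

/-- **The `χ`-part of a Betti level is an automorphic Ihara-avoidance level.** -/
noncomputable def iaAutLevelOfChi_T
    (dia_pow : ∀ a : ∀ j : Fin r, (ZMod (qv j))ˣ,
      dia (1, fun j => a j ^ p ^ padicValNat p (qv j - 1)) = 1)
    (hσ : ∀ (a : D₁) (e₁ : E₁), ∃ e₁' : E₁,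
      dia (a * γ₁ e₁, 1) = dia (γ₁ e₁', 1) ∧ χ (a * γ₁ e₁) = χ (γ₁ e₁'))
    (e₀ : E₁) (h1 : dia (γ₁ e₀, 1) = 1) (h1χ : χ (γ₁ e₀) = 1)
    (free : ∀ g : ∀ j : Fin r, (ZMod (qv j))ˣ, (∀ j, orderOf (g j) = qv j - 1) →
      ∃ b : Fin d → V, ∀ y : V,
        ∃! c : Fin d → E₁ × (∀ j : Fin r, Fin (p ^ padicValNat p (qv j - 1))) → 𝒪,
          y = ∑ i, ∑ e, algebraMap 𝒪 PQ.T (c i e) •
            dia (γ₁ e.1, fun j => g j ^ (e.2 j : ℕ)) (b i))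
    (hχ : ∀ a, ∃ c : 𝒪, χ a - 1 = lam * c)
    (hnu : ∀ t : PQ.T,
      (∀ (𝒪' : Type) [CommRing 𝒪'] [IsDomain 𝒪'] [IsDiscreteValuationRing 𝒪'] [CharZero 𝒪']
          [Algebra 𝒪 𝒪'] (x : PQ.T →ₐ[𝒪] 𝒪') (hx : IsLocalHom (x : PQ.T →+* 𝒪')),
          (∀ q ∈ Piv,
            ¬ (PQ.H.ρ.baseChangeAlong (x : PQ.T →+* 𝒪') hx).IsUnipotentOnInertiaAt q) →
          x t = 0) →
      ∀ m : V ⧸ chiRel (rhoL dia) (chiT PQ.T χ), t • m = 0)
    (hst : ∀ q ∈ Piv, ∀ P : ValuationSubring (AlgebraicClosure ℚ), P.LiesOverPrime q →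
      ∀ φ : AlgebraicClosure ℚ ≃ₐ[ℚ] AlgebraicClosure ℚ, P.IsFrobeniusAt φ q →
        ∀ x : V, (PQ.H.ρ.trace φ ^ 2 - ((1 + q : ℕ) : PQ.T) ^ 2) • x ∈
          chiRel (rhoL dia) (1 : D₁ →* PQ.T)) :
    IAAutLevel_T Piv qv PQ lam d where
  MQ := V ⧸ chiRel (rhoL dia) (chiT PQ.T χ)
  instAddCommGroup := inferInstance
  instModule := inferInstance
  dia := chiRho dia (chiT PQ.T χ)
  dia_pow a := chiRho_eq_one dia (chiT PQ.T χ) _ (dia_pow a)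
  free g hg := by
    obtain ⟨b, hb⟩ := free g hg
    letI : Module 𝒪 V := Module.compHom V (algebraMap 𝒪 PQ.T)
    haveI : IsScalarTower 𝒪 PQ.T V := IsScalarTower.of_algebraMap_smul fun _ _ => rfl
    obtain ⟨B, hB⟩ := exists_basis_of_existsUnique (O := 𝒪) (T := PQ.T)
      (E := E₁ × (∀ j : Fin r, Fin (p ^ padicValNat p (qv j - 1)))) (ι := Fin d)
      (fun z => dia (γ₁ z.1.1, fun j => g j ^ (z.1.2 j : ℕ)) (b z.2)) hb
    refine ⟨fun i => Submodule.Quotient.mk (b i), fun y => ?_⟩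
    exact chiQ_existsUnique dia χ γ₁
      (fun e : ∀ j : Fin r, Fin (p ^ padicValNat p (qv j - 1)) => fun j => g j ^ (e j : ℕ))
      b B hB hσ e₀ h1 h1χ y
  supp_nu := hnu
  st q hq P hP φ hφ m := chiQ_st (rhoL dia) χ lam hχ _ (hst q hq P hP φ hφ) m

/-- **The comparison `Cmp` descends to the `χ`-part.** -/
theorem iaAutLevelOfChi_cmp_T
    (dia_pow : ∀ a : ∀ j : Fin r, (ZMod (qv j))ˣ,
      dia (1, fun j => a j ^ p ^ padicValNat p (qv j - 1)) = 1)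
    (hσ : ∀ (a : D₁) (e₁ : E₁), ∃ e₁' : E₁,
      dia (a * γ₁ e₁, 1) = dia (γ₁ e₁', 1) ∧ χ (a * γ₁ e₁) = χ (γ₁ e₁'))
    (e₀ : E₁) (h1 : dia (γ₁ e₀, 1) = 1) (h1χ : χ (γ₁ e₀) = 1)
    (free : ∀ g : ∀ j : Fin r, (ZMod (qv j))ˣ, (∀ j, orderOf (g j) = qv j - 1) →
      ∃ b : Fin d → V, ∀ y : V,
        ∃! c : Fin d → E₁ × (∀ j : Fin r, Fin (p ^ padicValNat p (qv j - 1))) → 𝒪,
          y = ∑ i, ∑ e, algebraMap 𝒪 PQ.T (c i e) •
            dia (γ₁ e.1, fun j => g j ^ (e.2 j : ℕ)) (b i))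
    (hχ : ∀ a, ∃ c : 𝒪, χ a - 1 = lam * c)
    (hnu : ∀ t : PQ.T,
      (∀ (𝒪' : Type) [CommRing 𝒪'] [IsDomain 𝒪'] [IsDiscreteValuationRing 𝒪'] [CharZero 𝒪']
          [Algebra 𝒪 𝒪'] (x : PQ.T →ₐ[𝒪] 𝒪') (hx : IsLocalHom (x : PQ.T →+* 𝒪')),
          (∀ q ∈ Piv,
            ¬ (PQ.H.ρ.baseChangeAlong (x : PQ.T →+* 𝒪') hx).IsUnipotentOnInertiaAt q) →
          x t = 0) →
      ∀ m : V ⧸ chiRel (rhoL dia) (chiT PQ.T χ), t • m = 0)
    (hst : ∀ q ∈ Piv, ∀ P : ValuationSubring (AlgebraicClosure ℚ), P.LiesOverPrime q →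
      ∀ φ : AlgebraicClosure ℚ ≃ₐ[ℚ] AlgebraicClosure ℚ, P.IsFrobeniusAt φ q →
        ∀ x : V, (PQ.H.ρ.trace φ ^ 2 - ((1 + q : ℕ) : PQ.T) ^ 2) • x ∈
          chiRel (rhoL dia) (1 : D₁ →* PQ.T))
    (hcmp : ∀ (j : Fin r) (P : ValuationSubring Qb), P.LiesOverPrime (qv j) →
      ∀ φ : GQ, P.IsFrobeniusAt φ (qv j) →
      ∀ σ ∈ P.inertiaSubgroupIn ℚ, ∀ a : (ZMod (qv j))ˣ, orderOf a = qv j - 1 →
        CycloAt (qv j) σ (a : ZMod (qv j)).val →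
        ∀ a₀ w : PQ.T, IsInertiaValue PQ.H.ρ φ σ a₀ w →
          ∀ y : V, (∃ y' : V, y = w • y' - y') ↔
            ∃ y' : V, y = dia (1, Pi.mulSingle j a) y' - y') :
    (iaAutLevelOfChi_T PQ V γ₁ dia χ lam d dia_pow hσ e₀ h1 h1χ free hχ hnu hst).Cmp := by
  intro j P hP φ hφ σ hσ' a ha hcyc a₀ w hw y
  exact chiQ_range dia (chiT PQ.T χ) w (Pi.mulSingle j a)
    (hcmp j P hP φ hφ σ hσ' a ha hcyc a₀ w hw) y

end General

/-! ## The pivot group `∏ (ℤ/pv i)ˣ`, exponent basis, character built from `ζ` -/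

section Cyc

variable {p : ℕ}
  {𝒪 : Type} [CommRing 𝒪] [IsDomain 𝒪] [IsDiscreteValuationRing 𝒪]
  [IsAdicComplete (maximalIdeal 𝒪) 𝒪]
  {ρbar : ResidualGaloisRep (ResidueField 𝒪)} {ty : PType} {Smin : Finset ℕ}
  {Piv : Finset ℕ} {r : ℕ} {qv : Fin r → ℕ}
  [NeZero (wilesLevel p ty Smin (Smin ∪ Piv ∪ Finset.univ.image qv))]
  (PQ : HeckePkg p 𝒪 ρbar ty Smin (Smin ∪ Piv ∪ Finset.univ.image qv))
  (V : Type) [AddCommGroup V] [Module PQ.T V]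
  {k : ℕ} (pv : Fin k → ℕ)
  (dia : (∀ i : Fin k, (ZMod (pv i))ˣ) × (∀ j : Fin r, (ZMod (qv j))ˣ) →* Module.End PQ.T V)
  (d : ℕ)

/-- **`IAAutLevel_T` with `Cmp` from the Betti level** with pivot group `∏ (ℤ/pv i)ˣ`:
the conclusion of `IA.Hecke.IAAutStatement_T` at one Taylor–Wiles set. -/
theorem exists_iaAutLevel_cyc_T (hp : p.Prime) (ζ : 𝒪) (hζ : IsPrimitiveRoot ζ p)
    (hpv : ∀ i, (pv i).Prime) (hdvd : ∀ i, p ∣ pv i - 1)
    (dia_pow₁ : ∀ a : ∀ i : Fin k, (ZMod (pv i))ˣ,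
      dia (fun i => a i ^ p ^ padicValNat p (pv i - 1), 1) = 1)
    (dia_pow : ∀ a : ∀ j : Fin r, (ZMod (qv j))ˣ,
      dia (1, fun j => a j ^ p ^ padicValNat p (qv j - 1)) = 1)
    (free : ∀ (g₁ : ∀ i : Fin k, (ZMod (pv i))ˣ) (g : ∀ j : Fin r, (ZMod (qv j))ˣ),
      (∀ i, orderOf (g₁ i) = pv i - 1) → (∀ j, orderOf (g j) = qv j - 1) →
      ∃ b : Fin d → V, ∀ y : V,
        ∃! c : Fin d → (∀ i : Fin k, Fin (p ^ padicValNat p (pv i - 1))) ×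
            (∀ j : Fin r, Fin (p ^ padicValNat p (qv j - 1))) → 𝒪,
          y = ∑ i, ∑ e, algebraMap 𝒪 PQ.T (c i e) •
            dia (fun i => g₁ i ^ (e.1 i : ℕ), fun j => g j ^ (e.2 j : ℕ)) (b i))
    (hnu : ∀ χ : (∀ i : Fin k, (ZMod (pv i))ˣ) →* 𝒪, (∀ a, χ a ^ p = 1) →
      (∀ (i : Fin k) (g : (ZMod (pv i))ˣ), orderOf g = pv i - 1 → χ (Pi.mulSingle i g) ≠ 1) →
      ∀ t : PQ.T,
      (∀ (𝒪' : Type) [CommRing 𝒪'] [IsDomain 𝒪'] [IsDiscreteValuationRing 𝒪'] [CharZero 𝒪']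
          [Algebra 𝒪 𝒪'] (x : PQ.T →ₐ[𝒪] 𝒪') (hx : IsLocalHom (x : PQ.T →+* 𝒪')),
          (∀ q ∈ Piv,
            ¬ (PQ.H.ρ.baseChangeAlong (x : PQ.T →+* 𝒪') hx).IsUnipotentOnInertiaAt q) →
          x t = 0) →
      ∀ m : V ⧸ chiRel (rhoL dia) (chiT PQ.T χ), t • m = 0)
    (hst : ∀ q ∈ Piv, ∀ P : ValuationSubring (AlgebraicClosure ℚ), P.LiesOverPrime q →
      ∀ φ : AlgebraicClosure ℚ ≃ₐ[ℚ] AlgebraicClosure ℚ, P.IsFrobeniusAt φ q →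
        ∀ x : V, (PQ.H.ρ.trace φ ^ 2 - ((1 + q : ℕ) : PQ.T) ^ 2) • x ∈
          chiRel (rhoL dia) (1 : (∀ i : Fin k, (ZMod (pv i))ˣ) →* PQ.T))
    (hcmp : ∀ (j : Fin r) (P : ValuationSubring Qb), P.LiesOverPrime (qv j) →
      ∀ φ : GQ, P.IsFrobeniusAt φ (qv j) →
      ∀ σ ∈ P.inertiaSubgroupIn ℚ, ∀ a : (ZMod (qv j))ˣ, orderOf a = qv j - 1 →
        CycloAt (qv j) σ (a : ZMod (qv j)).val →
        ∀ a₀ w : PQ.T, IsInertiaValue PQ.H.ρ φ σ a₀ w →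
          ∀ y : V, (∃ y' : V, y = w • y' - y') ↔
            ∃ y' : V, y = dia (1, Pi.mulSingle j a) y' - y') :
    ∃ A : IAAutLevel_T Piv qv PQ (ζ - 1) d, A.Cmp := by
  classical
  obtain ⟨χ, hχp, hχ1, hχg⟩ := exists_pivot_character hp hζ pv hpv hdvd
  -- primitive roots at the pivots and at the Taylor–Wiles primes
  choose g₁ hg₁ord hg₁gen using fun i => exists_primitive_root_units (hpv i)
  have hM : ∀ i, 0 < p ^ padicValNat p (pv i - 1) := fun i => pow_pos hp.pos _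
  have hm1 : ∀ i, padicValNat p (pv i - 1) ≠ 0 := by
    intro i
    haveI : Fact p.Prime := ⟨hp⟩
    have h0 : pv i - 1 ≠ 0 := Nat.sub_ne_zero_of_lt (hpv i).one_lt
    have : 1 ≤ padicValNat p (pv i - 1) :=
      (padicValNat_dvd_iff_le h0).mp (by rw [pow_one]; exact hdvd i)
    omega
  let F : (∀ i : Fin k, (ZMod (pv i))ˣ) →* Module.End PQ.T V × 𝒪 := (rhoL dia).prod χ
  have hF : ∀ i, F (Pi.mulSingle i (g₁ i)) ^ (p ^ padicValNat p (pv i - 1)) = 1 := by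
    intro i
    refine Prod.ext ?_ ?_
    · change dia (Pi.mulSingle i (g₁ i), 1) ^ (p ^ padicValNat p (pv i - 1)) = 1
      rw [← map_pow, Prod.pow_mk, one_pow,
        mulSingle_pow_eq pv i (g₁ i) (fun i => p ^ padicValNat p (pv i - 1))]
      exact dia_pow₁ _
    · change χ (Pi.mulSingle i (g₁ i)) ^ (p ^ padicValNat p (pv i - 1)) = 1
      obtain ⟨m', hm'⟩ := Nat.exists_eq_succ_of_ne_zero (hm1 i)
      rw [hm', pow_succ', pow_mul, hχp, one_pow]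
  have hgen : ∀ (i : Fin k) (a : (ZMod (pv i))ˣ), ∃ s : ℕ, a = g₁ i ^ s := by
    intro i a
    haveI : NeZero (pv i) := ⟨(hpv i).ne_zero⟩
    exact exists_nat_pow_of_mem_zpowers (hg₁gen i) a
  have hσ : ∀ (a : ∀ i : Fin k, (ZMod (pv i))ˣ)
      (e₁ : ∀ i : Fin k, Fin (p ^ padicValNat p (pv i - 1))),
      ∃ e₁' : ∀ i : Fin k, Fin (p ^ padicValNat p (pv i - 1)),
        dia (a * (fun i => g₁ i ^ (e₁ i : ℕ)), 1) = dia ((fun i => g₁ i ^ (e₁' i : ℕ)), 1) ∧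
          χ (a * fun i => g₁ i ^ (e₁ i : ℕ)) = χ (fun i => g₁ i ^ (e₁' i : ℕ)) := by
    intro a e₁
    obtain ⟨e₁', he⟩ := exists_exp_translate F g₁ (fun i => p ^ padicValNat p (pv i - 1)) hM
      hgen hF a e₁
    exact ⟨e₁', congrArg Prod.fst he, congrArg Prod.snd he⟩
  have hone : (fun i : Fin k => g₁ i ^ ((⟨0, hM i⟩ : Fin (p ^ padicValNat p (pv i - 1))) : ℕ)) =
      1 := by
    funext i
    exact pow_zero _
  have h1 : dia ((fun i : Fin k =>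
      g₁ i ^ ((⟨0, hM i⟩ : Fin (p ^ padicValNat p (pv i - 1))) : ℕ)), 1) = 1 := by
    rw [hone]
    exact map_one dia
  have h1χ : χ (fun i : Fin k =>
      g₁ i ^ ((⟨0, hM i⟩ : Fin (p ^ padicValNat p (pv i - 1))) : ℕ)) = 1 := by
    rw [hone]
    exact map_one χ
  exact ⟨iaAutLevelOfChi_T PQ V (fun e : ∀ i : Fin k, Fin (p ^ padicValNat p (pv i - 1)) =>
      fun i => g₁ i ^ (e i : ℕ)) dia χ (ζ - 1) d dia_pow hσ (fun i => ⟨0, hM i⟩) h1 h1χ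
      (fun g hg => free g₁ g hg₁ord hg) hχ1 (hnu χ hχp hχg) hst,
    iaAutLevelOfChi_cmp_T PQ V _ dia χ (ζ - 1) d dia_pow hσ (fun i => ⟨0, hM i⟩) h1 h1χ
      (fun g hg => free g₁ g hg₁ord hg) hχ1 (hnu χ hχp hχg) hst hcmp⟩

end Cyc

end Fermat.Agent.S38.H354
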