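import Fermat.Agent.S38T.IA.Hecke.Spec3
import Fermat.Agent.S38T.H354.ChiAut
import Fermat.Agent.S38.H354.GlueA

/-!
# Row S59 (B2) HECKE-T, GLUE A: `IABettiStatement_T → IAAut5Statement_T` (helper354)

MECHANICAL TWIN, in the convention of helper3 (`S38T/IA/Spec.lean`), of the official glue A of row
HARD (`S38/H354/GlueA.lean`): module `S38.X -> S38T.X`, SAME namespace, suffix `_T`.  The frozen
Props are those of `S38T/IA/Hecke/Spec3.lean` @166e8dc9f (`3 ≤ p`, `ty : PType`,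
`IsPTypeAt p ρbar ty`, `ribetLevelT`).  Pure algebra (the `χ`-part): neither `3 ≤ p` nor
`IsPTypeAt` is used; the `ty`-independent lemmas (`chiRel_one_eq_span`, `exists_enum`) are the HARD
ones, imported.

* `iaAutLevel_of_bettiLevel_T` : `B : IABettiLevel_T Piv pv qv PQ d`, `B.Cmp`, `ζ` a primitive
  `p`-th root of unity, `pv i` primes `≡ 1 mod p` ⟹ `∃ A : IAAutLevel_T Piv qv PQ (ζ - 1) d, A.Cmp`;
* `iaAut5_of_betti_T : IABettiStatement_T → IAAut5Statement_T` (VERBATIM `S38T/IA/Hecke/Spec3`).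
-/

set_option autoImplicit false
set_option linter.unusedSectionVars false
set_option linter.style.haveILetI false

open Polynomial IsLocalRing

namespace Fermat.Agent.S38.H354

open Fermat.Agent.S59.Arch Fermat.Agent.S59.TW.H959 Fermat.Agent.S59.TW Fermat.Agent.S59.H765
open Fermat.Agent.S38.IA Fermat.Agent.S38.IA.Hecke

section Level

variable {p : ℕ}
  {𝒪 : Type} [CommRing 𝒪] [IsDomain 𝒪] [IsDiscreteValuationRing 𝒪]
  [IsAdicComplete (maximalIdeal 𝒪) 𝒪]
  {ρbar : ResidualGaloisRep (ResidueField 𝒪)} {ty : PType} {Smin : Finset ℕ}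
  {Piv : Finset ℕ} {k : ℕ} {pv : Fin k → ℕ} {r : ℕ} {qv : Fin r → ℕ}
  [NeZero (wilesLevel p ty Smin (Smin ∪ Piv ∪ Finset.univ.image qv))]
  {PQ : HeckePkg p 𝒪 ρbar ty Smin (Smin ∪ Piv ∪ Finset.univ.image qv)} {d : ℕ}

/-- **Glue A at one Taylor–Wiles set**, `ty`-generic: the `χ`-part of an abstract Betti module is
an automorphic Ihara-avoidance module. -/
theorem iaAutLevel_of_bettiLevel_T (B : IABettiLevel_T Piv pv qv PQ d) (hB : B.Cmp)
    (hp : p.Prime) (ζ : 𝒪) (hζ : IsPrimitiveRoot ζ p)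
    (hpv : ∀ i, (pv i).Prime) (hdvd : ∀ i, p ∣ pv i - 1) :
    ∃ A : IAAutLevel_T Piv qv PQ (ζ - 1) d, A.Cmp := by
  refine exists_iaAutLevel_cyc_T PQ B.V pv B.dia d hp ζ hζ hpv hdvd B.dia_pow₁ B.dia_pow₂ B.free
    ?_ ?_ hB
  · intro χ hχp hχg t ht m
    have hpiv : IsPivChar p pv χ := by
      refine ⟨hχp, fun i => ?_⟩
      obtain ⟨g, hg, -⟩ := exists_primitive_root_units (hpv i)
      exact ⟨g, hχg i g hg⟩
    induction m using Submodule.Quotient.induction_on with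
    | H v =>
      rw [← Submodule.Quotient.mk_smul, Submodule.Quotient.mk_eq_zero]
      exact B.nu χ hpiv t ht v
  · intro q hq P hP φ hφ x
    rw [chiRel_one_eq_span]
    exact B.st q hq P hP φ hφ x

end Level

/-- **GLUE A, `ty`-generic** (VERBATIM `S38T/IA/Hecke/Spec3.lean`): the abstract Betti module gives
the automorphic module of Ihara avoidance. -/
theorem iaAut5_of_betti_T (h : IABettiStatement_T) : IAAut5Statement_T := by
  intro p hpF hp5 𝒪 _ _ _ _ _ _ ρbar Smin hh ty hflat ζ hζ Piv hPiv _ θ₀ hθ₀ hmin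
  obtain ⟨k, pv, hpvinj, hpvPiv⟩ := exists_enum Piv
  have hmem : ∀ i, pv i ∈ Piv := by
    intro i
    rw [← hpvPiv]
    exact Finset.mem_image_of_mem pv (Finset.mem_univ i)
  have hpv : ∀ i, (pv i).Prime := fun i => (hPiv (pv i) (hmem i)).1
  have hdvd : ∀ i, p ∣ pv i - 1 := fun i => (hPiv (pv i) (hmem i)).2.2.1
  obtain ⟨d, hd, hB⟩ := h p hp5 𝒪 ρbar Smin hh ty hflat Piv hPiv θ₀ hθ₀ hmin k pv hpvinj hpvPiv
  refine ⟨d, hd, ?_⟩
  intro n r qv hq _ hp PQ hθ
  obtain ⟨B, hBcmp⟩ := hB n r qv hq hp PQ hθ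
  exact iaAutLevel_of_bettiLevel_T B hBcmp hpF.out ζ hζ hpv hdvd

end Fermat.Agent.S38.H354
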